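import Fermat.Agent.PoitouTate.Coind.Sha

/-!
# The facts about coinduced coefficients, from the field
-/

set_option autoImplicit false

noncomputable section

open scoped Pointwise

namespace FLTAgent.PoitouTate

open FLTAgent.Lowering.P1 FLTAgent.Lowering.P1.Brauer

/-- Coinduced modules, from the field. -/
theorem targetCoind : TargetCoind := by
  intro hfield p _ hp2 S hpS V hV F _ A A' _ _ _ _ _ _ ρ ρ' P _ _
  have hF := hfield p hp2 S hpS F (F.placesAt V) (F.splaces_placesAt hV)
  exact
    { finiteGlobal := F.coind_finiteGlobal hF.finiteGlobal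
      finiteLocal := fun q hq => ⟨F.coind_finiteLocal V hF hq, F.coind_finiteLocal V hF hq⟩
      leftNondeg := fun q hq a ha h => F.coind_leftNondeg V hV P hp2 hF hq ha h
      rightNondeg := fun q hq b hb h => F.coind_rightNondeg V hV P hp2 hF hq hb h
      middle := fun r hr h => F.coind_middle V hV P hp2 hF r hr h
      sha_finite := (F.coind_sha V P hF).1
      sha_le := (F.coind_sha V P hF).2 }

end FLTAgent.PoitouTate
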