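import Fermat.Agent.PoitouTate.Coind.Places
import Fermat.Agent.PoitouTate.LocalDual.InvCor

/-!
# The cup product of coinduced coefficients

Its invariant is the sum over the places of the field of the invariants of the products of the
components.
-/

set_option autoImplicit false
set_option linter.style.haveILetI false
set_option linter.unusedSectionVars false

noncomputable section

open scoped Pointwise

namespace FLTAgent.PoitouTate

open FLTAgent FLTAgent.Lowering.P1 FLTAgent.Lowering.P1.Brauer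

local notation "LL" => AlgebraicClosure ℚ
local notation "GG" => (AlgebraicClosure ℚ ≃ₐ[ℚ] AlgebraicClosure ℚ)
local notation "VS" => ValuationSubring (AlgebraicClosure ℚ)
local notation "Dec" => ValuationSubring.decompositionSubgroup ℚ

variable {p : ℕ} [Fact p.Prime] {S : Finset Nat.Primes} {A A' : Type} [AddCommGroup A]
  [Module (ZMod p) A] [AddCommGroup A'] [Module (ZMod p) A']

/-- The product of two additive cochains. -/
def pairC {G : Type} (e : A →ₗ[ZMod p] A' →ₗ[ZMod p] ZMod p) (α : G → A) (β : G → A') (u v : G) :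
    ZMod p := e (α u) (β v)

theorem pairC_mem_Z2 (e : A →ₗ[ZMod p] A' →ₗ[ZMod p] ZMod p) {H : Subgroup GG}
    (hH : ∀ g ∈ H, om p g = 1) {α : ↥H → A} (hα : SField.HomL A H α) {β : ↥H → A'}
    (hβ : SField.HomL A' H β) : pairC e α β ∈ Z2 (omRep p) H.subtype := by
  obtain ⟨hα, E, hE, hlα⟩ := hα
  obtain ⟨hβ, E', hE', hlβ⟩ := hβ
  refine ⟨⟨E ⊔ E', inferInstance, fun g h s t hs ht => ?_⟩, fun g h j => ?_⟩
  · simp only [pairC]
    rw [hlα g s (IntermediateField.fixingSubgroup_antitone le_sup_left hs),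
      hlβ h t (IntermediateField.fixingSubgroup_antitone le_sup_right ht)]
  · simp only [pairC, omRep_apply, Subgroup.coe_subtype, hH (g : GG) g.2, one_mul, hα, hβ, map_add,
      LinearMap.add_apply]
    ring

theorem invL_finsum (hp2 : p ≠ 2) {l : ℕ} {W : VS} {H : Subgroup GG} (hl : l.Prime)
    (hW : W.LiesOverPrime l) (hH : LocalSub W H) {ι : Type} (s : Finset ι)
    (c : ι → ↥H → ↥H → ZMod p) (hc : ∀ i ∈ s, c i ∈ Z2 (omRep p) H.subtype) :
    invL p W H (∑ i ∈ s, c i) = ∑ i ∈ s, invL p W H (c i) := by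
  classical
  induction s using Finset.induction with
  | empty => simpa using invL_B2 hp2 hl hW hH (Submodule.zero_mem _)
  | insert i s hi ih =>
    rw [Finset.sum_insert hi, Finset.sum_insert hi,
      invL_add hp2 hl hW hH (hc i (Finset.mem_insert_self i s))
        (Submodule.sum_mem _ fun j hj => hc j (Finset.mem_insert_of_mem hj)),
      ih fun j hj => hc j (Finset.mem_insert_of_mem hj)]

namespace SField

variable (F : SField p S) {W : VS}

/-- The cochain with the same components. -/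
def core (a : ↥(Dec W) → F.Γ → A) (g : ↥(Dec W)) (y : F.Γ) : A :=
  a (F.inD W (F.uH W ((F.orbEquiv W).symm y).2 g)) ((F.orbEquiv W).symm y).1.out

theorem sub_core_mem {a : ↥(Dec W) → F.Γ → A} (ha : a ∈ Z1 (F.coind A) (Dec W).subtype) :
    a - F.core a ∈ B1 (F.coind A) (Dec W).subtype := by
  refine ⟨fun y => a ((F.orbEquiv W).symm y).2.out ((F.orbEquiv W).symm y).1.out,
    funext fun g => funext fun y => ?_⟩
  obtain ⟨⟨o, x⟩, rfl⟩ := (F.orbEquiv W).surjective y
  rw [d0_apply, Pi.sub_apply, coind_apply, Subgroup.coe_subtype, Pi.sub_apply, Pi.sub_apply, core]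
  rw [F.orbEquiv_mul, Equiv.symm_apply_apply, Equiv.symm_apply_apply, F.z1_decomp ha o x g]
  exact (add_sub_cancel_left _ _).symm

theorem core_mem_Z1 {a : ↥(Dec W) → F.Γ → A} (ha : a ∈ Z1 (F.coind A) (Dec W).subtype) :
    F.core a ∈ Z1 (F.coind A) (Dec W).subtype := by
  have h := Submodule.sub_mem _ ha (B1_le_Z1 F.smooth_coind (F.sub_core_mem ha))
  rwa [sub_sub_cancel] at h

theorem homL_at {a : ↥(Dec W) → F.Γ → A} (ha : a ∈ Z1 (F.coind A) (Dec W).subtype) (o : F.Orb W) :
    HomL A (F.Hw W) fun u => a (F.inD W u) o.out := by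
  have h := F.homL_cvtInv (F.homL_comp ha o)
  simp only [comp_cvtInv] at h
  exact h

variable [Fintype F.Γ] {ρ : Representation (ZMod p) GG A} {ρ' : Representation (ZMod p) GG A'}
  (P : DualPair ρ ρ')

theorem cup_core (a : ↥(Dec W) → F.Γ → A) (b : ↥(Dec W) → F.Γ → A') :
    cup (Dec W).subtype (F.coindPair P).e (F.coind A') (F.core a) (F.core b) =
      ∑ o : F.Orb W, (om p (F.rr o))⁻¹ •
        F.cor2 W (pairC P.e (fun u => a (F.inD W u) o.out) fun u => b (F.inD W u) o.out) := by
  funext g h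
  simp only [Finset.sum_apply, Pi.smul_apply, smul_eq_mul, cor2, Finset.mul_sum]
  rw [← Fintype.sum_prod_type']
  show F.coindE P.e (F.core a g) (F.coind A' (g : GG) (F.core b h)) = _
  rw [coindE_apply]
  refine (Fintype.sum_equiv (F.orbEquiv W) _ _ ?_).symm
  rintro ⟨o, x⟩
  have e : om p (F.orbEquiv W (o, x)).out = om p (F.rr o) * om p (x.out : GG) := by
    rw [orbEquiv_apply, ← F.embΓ_out, F.om_out]
    rfl
  simp only [core, pairC, coind_apply, F.orbEquiv_mul, Equiv.symm_apply_apply, e, mul_inv, mul_assoc]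

variable {l : ℕ} (hp2 : p ≠ 2) (hl : l.Prime) (hW : W.LiesOverPrime l)

include hp2 hl hW in
/-- The invariant of a cup product, place by place. -/
theorem invL_cup {a : ↥(Dec W) → F.Γ → A} (ha : a ∈ Z1 (F.coind A) (Dec W).subtype)
    {b : ↥(Dec W) → F.Γ → A'} (hb : b ∈ Z1 (F.coind A') (Dec W).subtype) :
    invL p W (Dec W) (cup (Dec W).subtype (F.coindPair P).e (F.coind A') a b) =
      ∑ o : F.Orb W, invL p (F.pl o) (F.Hw (F.pl o))
        (pairC P.e (F.comp o a) (F.comp o b)) := by
  have hH : ∀ (U : VS) (g : GG), g ∈ F.Hw U → om p g = 1 := fun U g hg =>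
    F.zeta g (Subgroup.mem_inf.1 hg).1
  have hsm : Smooth (F.coind A') := F.smooth_coind
  have ha' := F.core_mem_Z1 ha
  have hb' := F.core_mem_Z1 hb
  have hdiff : cup (Dec W).subtype (F.coindPair P).e (F.coind A') a b -
      cup (Dec W).subtype (F.coindPair P).e (F.coind A') (F.core a) (F.core b) ∈
        B2 (omRep p) (Dec W).subtype := by
    have e : cup (Dec W).subtype (F.coindPair P).e (F.coind A') a b -
        cup (Dec W).subtype (F.coindPair P).e (F.coind A') (F.core a) (F.core b) =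
        cup (Dec W).subtype (F.coindPair P).e (F.coind A') (a - F.core a) b +
          cup (Dec W).subtype (F.coindPair P).e (F.coind A') (F.core a) (b - F.core b) := by
      funext g h
      simp only [cup, Pi.sub_apply, Pi.add_apply, map_sub, LinearMap.sub_apply]
      abel
    rw [e]
    exact Submodule.add_mem _ (cup_mem_B2_left (F.coindPair P) (F.sub_core_mem ha) hb)
      (cup_mem_B2_right (F.coindPair P) hsm ha' (F.sub_core_mem hb))
  rw [invL_congr hp2 hl hW localSub_self (cup_mem_Z2 (F.coindPair P) hsm ha' hb') hdiff,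
    F.cup_core P]
  have ht : ∀ o : F.Orb W, pairC P.e (fun u => a (F.inD W u) o.out)
      (fun u => b (F.inD W u) o.out) ∈ Z2 (omRep p) (F.Hw W).subtype := fun o =>
    pairC_mem_Z2 P.e (hH W) (F.homL_at ha o) (F.homL_at hb o)
  rw [invL_finsum hp2 hl hW localSub_self _ _
    fun o _ => Submodule.smul_mem _ _ (F.cor2_mem_Z2 W (ht o))]
  refine Finset.sum_congr rfl fun o _ => ?_
  rw [invL_smul hp2 hl hW localSub_self _ (F.cor2_mem_Z2 W (ht o)),
    F.invCor W hp2 hl hW _ (ht o)]
  have h := invL_conj hp2 hl hW (F.rr o) (F.localSub_Hw W) (fun g => F.mem_Hw_pl o) (ht o)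
  rw [← h]
  have hpl : (F.rr o • W).LiesOverPrime l := Places.liesOverPrime_smul _ _ hW
  have hz : pairC P.e (F.comp o a) (F.comp o b) ∈ Z2 (omRep p) (F.Hw (F.pl o)).subtype :=
    pairC_mem_Z2 P.e (hH _) (F.homL_comp ha o) (F.homL_comp hb o)
  rw [show (fun g h : ↥(F.Hw (F.pl o)) => om p (F.rr o) *
      pairC P.e (fun u => a (F.inD W u) o.out) (fun u => b (F.inD W u) o.out)
        ⟨(F.rr o)⁻¹ * g * F.rr o, (F.mem_Hw_pl o).1 g.2⟩
        ⟨(F.rr o)⁻¹ * h * F.rr o, (F.mem_Hw_pl o).1 h.2⟩) =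
      om p (F.rr o) • pairC P.e (F.comp o a) (F.comp o b) from rfl]
  refine (congrArg (fun z => (om p (F.rr o))⁻¹ * z)
    (invL_smul hp2 hl hpl (F.localSub_Hw _) _ hz)).trans ?_
  rw [← mul_assoc, inv_mul_cancel₀ (om_ne_zero _), one_mul]
  rfl

end SField

end FLTAgent.PoitouTate
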