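import Fermat.Agent.PoitouTate.Lift.Transfer
import Fermat.Agent.PoitouTate.Targets

/-!
# Global cochains with coinduced coefficients

The passage between cochains with values in the functions on the group of the field and cochains
of the subgroup fixing the field, in degrees one and two, on cochains.
-/

set_option autoImplicit false
set_option linter.style.haveILetI false
set_option linter.unusedSectionVars false

noncomputable section

open scoped Pointwise

namespace FLTAgent.PoitouTate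

open FLTAgent FLTAgent.Lowering.P1 FLTAgent.Lowering.P1.Brauer

local notation "LL" => AlgebraicClosure ℚ
local notation "GG" => (AlgebraicClosure ℚ ≃ₐ[ℚ] AlgebraicClosure ℚ)
local notation "VS" => ValuationSubring (AlgebraicClosure ℚ)
local notation "Dec" => ValuationSubring.decompositionSubgroup ℚ

variable {p : ℕ} [Fact p.Prime] {S : Finset Nat.Primes} {A : Type} [AddCommGroup A]
  [Module (ZMod p) A]

namespace SField

variable (F : SField p S)

/-- The image of an element of the group of the field is trivial. -/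
theorem mk_mem_one {g : GG} (hg : g ∈ F.N) : (g : F.Γ) = 1 := (QuotientGroup.eq_one_iff g).2 hg

theorem smooth_coind : Smooth (F.coind A) :=
  ⟨F.K, F.fd, fun g hg => LinearMap.ext fun f => funext fun x => by
    rw [coind_apply, F.mk_mem_one (g := g) hg, mul_one, LinearMap.id_apply]⟩

variable {G : Type} [Group G] {ι : G →* GG}

theorem z1_apply {c : G → F.Γ → A} (hc : c ∈ Z1 (F.coind A) ι) (g h : G) (x : F.Γ) :
    c (g * h) x = c g x + c h (x * (ι g : F.Γ)) := congrFun (hc.2 g h) x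

theorem z1_one {c : G → F.Γ → A} (hc : c ∈ Z1 (F.coind A) ι) (x : F.Γ) : c 1 x = 0 := by
  have h := F.z1_apply hc 1 1 x
  rwa [one_mul, map_one, QuotientGroup.mk_one, mul_one, left_eq_add] at h

/-- A cocycle at a conjugate of an element of the kernel. -/
theorem z1_conj {c : G → F.Γ → A} (hc : c ∈ Z1 (F.coind A) ι) (g : G) {m : G} (hm : ι m ∈ F.N)
    (x : F.Γ) : c (g * m * g⁻¹) x = c m (x * (ι g : F.Γ)) := by
  have h1 := F.z1_apply hc g g⁻¹ x
  rw [mul_inv_cancel, F.z1_one hc] at h1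
  rw [mul_assoc, F.z1_apply hc g, F.z1_apply hc m, F.mk_mem_one hm, mul_one, add_comm (c m _),
    ← add_assoc, ← h1, zero_add]

/-- The component of an element at a point, in the group of the field. -/
def uΓ (x : F.Γ) (g : GG) : ↥F.N :=
  ⟨x.out * g * (x * (g : F.Γ)).out⁻¹, (QuotientGroup.eq_one_iff _).1 (by
    rw [QuotientGroup.mk_mul, QuotientGroup.mk_mul, QuotientGroup.mk_inv, QuotientGroup.out_eq',
      QuotientGroup.out_eq', mul_inv_cancel])⟩

theorem coe_uΓ (x : F.Γ) (g : GG) :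
    (F.uΓ x g : GG) = x.out * g * (x * (g : F.Γ)).out⁻¹ := rfl

theorem uΓ_mul_out (x : F.Γ) (g : GG) :
    (F.uΓ x g : GG) * (x * (g : F.Γ)).out = x.out * g := inv_mul_cancel_right _ _

theorem uΓ_mul (x : F.Γ) (g h : GG) :
    F.uΓ x (g * h) = F.uΓ x g * F.uΓ (x * (g : F.Γ)) h :=
  Subtype.ext (by simp only [coe_uΓ, Subgroup.coe_mul, QuotientGroup.mk_mul, mul_assoc,
    inv_mul_cancel_left])

/-- The value of a one cochain at the origin. -/
def ev1 : (GG → F.Γ → A) →ₗ[ZMod p] ↥F.N → A :=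
  LinearMap.pi fun n => (LinearMap.proj (1 : F.Γ)) ∘ₗ LinearMap.proj (n : GG)

theorem ev1_apply (c : GG → F.Γ → A) (n : ↥F.N) : F.ev1 c n = c n 1 := rfl

/-- The coinduced one cochain. -/
def shG (α : ↥F.N → A) (g : GG) (x : F.Γ) : A := α (F.uΓ x g)

theorem mem_B1_of_ev1 {c : GG → F.Γ → A} (hc : c ∈ Z1 (F.coind A) (MonoidHom.id GG))
    (h0 : F.ev1 c = 0) : c ∈ B1 (F.coind A) (MonoidHom.id GG) := by
  refine ⟨fun x => c x.out 1, funext fun g => funext fun x => ?_⟩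
  have h1 := F.z1_apply hc x.out g 1
  have h2 := F.z1_apply hc (F.uΓ x g : GG) (x * (g : F.Γ)).out 1
  simp only [MonoidHom.id_apply, QuotientGroup.out_eq', one_mul, F.mk_mem_one (F.uΓ x g).2] at h1 h2
  rw [F.uΓ_mul_out, h1, ← F.ev1_apply c, h0, Pi.zero_apply, zero_add] at h2
  show c (x * (g : F.Γ)).out 1 - c x.out 1 = c g x
  rw [← h2, add_sub_cancel_left]

theorem ev1_d0 (f : F.Γ → A) : F.ev1 (d0 (F.coind A) (MonoidHom.id GG) f) = 0 :=
  funext fun n => by
    show f (1 * ((n : GG) : F.Γ)) - f 1 = 0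
    rw [F.mk_mem_one n.2, mul_one, sub_self]

/-- A one cochain over the field, unramified outside `S`, additive. -/
def Hom1 (α : ↥F.N → A) : Prop :=
  (∀ m n, α (m * n) = α m + α n) ∧ LevS F.N.subtype S α

theorem exists_conj_unramified {E : IntermediateField ℚ LL} (hE : E.IsUnramifiedOutside S) :
    ∃ M : IntermediateField ℚ LL, M.IsUnramifiedOutside S ∧
      ∀ σ ∈ M.fixingSubgroup, σ ∈ F.N ∧ σ ∈ E.fixingSubgroup ∧
        ∀ g : GG, g * σ * g⁻¹ ∈ E.fixingSubgroup := by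
  obtain ⟨L, hL, hLE⟩ := exists_core_unramified hE
  exact ⟨L ⊔ F.K, hL.sup F.unram, fun σ hσ =>
    have h := hLE σ (IntermediateField.fixingSubgroup_antitone le_sup_left hσ)
    ⟨IntermediateField.fixingSubgroup_antitone le_sup_right hσ, by simpa using h 1, h⟩⟩

theorem uΓ_small {E : IntermediateField ℚ LL} {σ : GG} (hN : σ ∈ F.N)
    (hσ : ∀ g : GG, g * σ * g⁻¹ ∈ E.fixingSubgroup) (x : F.Γ) (g : GG) :
    ((g * σ : GG) : F.Γ) = (g : F.Γ) ∧
      ∃ s : ↥F.N, (s : GG) ∈ E.fixingSubgroup ∧ F.uΓ x (g * σ) = F.uΓ x g * s := by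
  refine ⟨by rw [QuotientGroup.mk_mul, F.mk_mem_one hN, mul_one], F.uΓ (x * (g : F.Γ)) σ, ?_,
    F.uΓ_mul x g σ⟩
  rw [coe_uΓ, F.mk_mem_one hN, mul_one]
  exact hσ _

theorem shG_mem_Z1S {α : ↥F.N → A} (hα : F.Hom1 α) :
    F.shG α ∈ Z1S (F.coind A) (MonoidHom.id GG) S := by
  obtain ⟨hmul, E, hE, hlev⟩ := hα
  obtain ⟨M, hM, hM'⟩ := F.exists_conj_unramified hE
  have hl : ∀ g s : GG, s ∈ M.fixingSubgroup → F.shG α (g * s) = F.shG α g := fun g s hs => by
    funext x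
    obtain ⟨-, s', hs', e⟩ := F.uΓ_small (hM' s hs).1 (hM' s hs).2.2 x g
    rw [shG, e]
    exact hlev _ _ hs'
  refine ⟨⟨⟨M, hM.1, hl⟩, fun g h => funext fun x => ?_⟩, M, hM, hl⟩
  show α (F.uΓ x (g * h)) = α (F.uΓ x g) + α (F.uΓ (x * (g : F.Γ)) h)
  rw [F.uΓ_mul, hmul]

theorem hom1_conj {α : ↥F.N → A} (hα : F.Hom1 α) (n m : ↥F.N) : α (n * m * n⁻¹) = α m := by
  have h1 : α 1 = 0 := by
    have h := hα.1 1 1
    rwa [one_mul, left_eq_add] at h
  have h2 : α n + α n⁻¹ = 0 := by rw [← hα.1, mul_inv_cancel, h1]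
  rw [hα.1, hα.1, add_right_comm, h2, zero_add]

theorem ev1_shG {α : ↥F.N → A} (hα : F.Hom1 α) : F.ev1 (F.shG α) = α := funext fun n => by
  have hr : (1 : F.Γ).out ∈ F.N :=
    (QuotientGroup.eq_one_iff _).1 (QuotientGroup.out_eq' _)
  refine Eq.trans (congrArg α (Subtype.ext ?_)) (F.hom1_conj hα ⟨_, hr⟩ n)
  rw [coe_uΓ, F.mk_mem_one n.2, mul_one]
  rfl

theorem hom1_ev1 {c : GG → F.Γ → A} (hc : c ∈ Z1S (F.coind A) (MonoidHom.id GG) S) :
    F.Hom1 (F.ev1 c) := by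
  refine ⟨fun m n => ?_, ?_⟩
  · have h := F.z1_apply hc.1 (m : GG) (n : GG) 1
    rw [MonoidHom.id_apply, F.mk_mem_one m.2, mul_one] at h
    exact h
  · obtain ⟨E, hE, hlev⟩ := hc.2
    exact ⟨E, hE, fun g s hs => congrFun (hlev (g : GG) (s : GG) hs) 1⟩

/-! ### Degree two -/

/-- The value of a two cochain at the origin. -/
def ev2 : (GG → GG → F.Γ → A) →ₗ[ZMod p] ↥F.N → ↥F.N → A :=
  LinearMap.pi fun m => LinearMap.pi fun n =>
    (LinearMap.proj (1 : F.Γ)) ∘ₗ (LinearMap.proj (n : GG) : (GG → F.Γ → A) →ₗ[ZMod p] F.Γ → A) ∘ₗ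
      LinearMap.proj (m : GG)

theorem ev2_apply (f : GG → GG → F.Γ → A) (m n : ↥F.N) : F.ev2 f m n = f m n 1 := rfl

theorem z2_apply {f : GG → GG → F.Γ → A} (hf : f ∈ Z2 (F.coind A) (MonoidHom.id GG)) (a b c : GG) :
    f b c (a : F.Γ) - f (a * b) c 1 + f a (b * c) 1 - f a b 1 = 0 := by
  have h := congrFun (hf.2 a b c) 1
  simp only [Pi.add_apply, Pi.sub_apply, MonoidHom.id_apply, coind_apply, one_mul,
    Pi.zero_apply] at h
  exact h

/-- A two cocycle at a point against its conjugate at the origin. -/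
theorem z2_conj {f : GG → GG → F.Γ → A} (hf : f ∈ Z2 (F.coind A) (MonoidHom.id GG)) (g : GG)
    {a b : GG} (ha : a ∈ F.N) (hb : b ∈ F.N) :
    f a b (g : F.Γ) = f (g * a * g⁻¹) (g * b * g⁻¹) 1 +
      ((f g a 1 - f (g * a * g⁻¹) g 1) - (f g (a * b) 1 - f (g * (a * b) * g⁻¹) g 1) +
        (f g b 1 - f (g * b * g⁻¹) g 1)) := by
  set a' := g * a * g⁻¹ with ha'
  set b' := g * b * g⁻¹ with hb'
  have ha1 : (a' : F.Γ) = 1 := F.mk_mem_one (F.instNormal.conj_mem a ha g)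
  have hb1 : (b' : F.Γ) = 1 := F.mk_mem_one (F.instNormal.conj_mem b hb g)
  have e1 : g * a = a' * g := by rw [ha']; group
  have e2 : g * b = b' * g := by rw [hb']; group
  have e3 : g * (a * b) * g⁻¹ = a' * b' := by rw [ha', hb']; group
  have i1 := F.z2_apply hf g a b
  have i2 := F.z2_apply hf a' g b
  have i3 := F.z2_apply hf a' b' g
  rw [e1] at i1
  rw [ha1, e2] at i2
  rw [ha1] at i3
  rw [e3]
  rw [← sub_eq_zero]
  rw [← sub_eq_zero] at i1 i2 i3
  refine Eq.trans ?_ (show (f a b (g : F.Γ) - f (a' * g) b 1 + f g (a * b) 1 - f g a 1 - 0) -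
    (f g b 1 - f (a' * g) b 1 + f a' (b' * g) 1 - f a' g 1 - 0) +
    (f b' g 1 - f (a' * b') g 1 + f a' (b' * g) 1 - f a' b' 1 - 0) = 0 by
      rw [i1, i2, i3, sub_zero, add_zero])
  abel

/-- The correction of a two cocycle. -/
def corr2 (f : GG → GG → F.Γ → A) (g : GG) (x : F.Γ) : A :=
  f x.out g 1 - f (F.uΓ x g : GG) (x * (g : F.Γ)).out 1

/-- A two cocycle from its values at the origin. -/
theorem z2_decomp {f : GG → GG → F.Γ → A} (hf : f ∈ Z2 (F.coind A) (MonoidHom.id GG)) (g h : GG)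
    (x : F.Γ) : f g h x = F.ev2 f (F.uΓ x g) (F.uΓ (x * (g : F.Γ)) h) +
      d1 (F.coind A) (MonoidHom.id GG) (F.corr2 f) g h x := by
  set r := x.out with hr
  set r' := (x * (g : F.Γ)).out with hr'
  set r'' := (x * (g : F.Γ) * (h : F.Γ)).out with hr''
  set n1 := (F.uΓ x g : GG) with hn1
  set n2 := (F.uΓ (x * (g : F.Γ)) h : GG) with hn2
  have e1 : r * g = n1 * r' := (F.uΓ_mul_out x g).symm
  have e2 : r' * h = n2 * r'' := (F.uΓ_mul_out (x * (g : F.Γ)) h).symm
  have e3 : (F.uΓ x (g * h) : GG) = n1 * n2 := by rw [F.uΓ_mul]; rfl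
  have h1 : (n1 : F.Γ) = 1 := F.mk_mem_one (F.uΓ x g).2
  have hx : (r : F.Γ) = x := QuotientGroup.out_eq' x
  have i1 := F.z2_apply hf r g h
  have i2 := F.z2_apply hf n1 r' h
  have i3 := F.z2_apply hf n1 n2 r''
  rw [hx, e1] at i1
  rw [h1, e2] at i2
  rw [h1] at i3
  rw [d1_apply, Pi.add_apply, Pi.sub_apply, MonoidHom.id_apply, coind_apply]
  simp only [corr2, ev2_apply, QuotientGroup.mk_mul, ← mul_assoc x, e3, ← hn1, ← hn2, ← hr, ← hr',
    ← hr'']
  rw [← sub_eq_zero]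
  rw [← sub_eq_zero] at i1 i2 i3
  refine Eq.trans ?_ (show (f g h x - f (n1 * r') h 1 + f r (g * h) 1 - f r g 1 - 0) -
    (f r' h 1 - f (n1 * r') h 1 + f n1 (n2 * r'') 1 - f n1 r' 1 - 0) +
    (f n2 r'' 1 - f (n1 * n2) r'' 1 + f n1 (n2 * r'') 1 - f n1 n2 1 - 0) = 0 by
      rw [i1, i2, i3, sub_zero, add_zero])
  abel

/-- A two cocycle whose value at the origin is a coboundary is a coboundary. -/
theorem mem_B2S_of_ev2 {f : GG → GG → F.Γ → A} (hf : f ∈ Z2S (F.coind A) (MonoidHom.id GG) S)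
    {ψ : ↥F.N → A} (hψl : LevS F.N.subtype S ψ)
    (hψ : ∀ m n, F.ev2 f m n = ψ n - ψ (m * n) + ψ m) :
    f ∈ B2S (F.coind A) (MonoidHom.id GG) S := by
  refine ⟨fun g x => ψ (F.uΓ x g) + F.corr2 f g x, ?_, funext fun g => funext fun h =>
    funext fun x => ?_⟩
  · obtain ⟨E, hE, hlev⟩ := hf.2
    obtain ⟨E', hE', hlev'⟩ := hψl
    obtain ⟨M, hM, hM'⟩ := F.exists_conj_unramified (hE.sup hE')
    refine ⟨M, hM, fun g s hs => funext fun x => ?_⟩
    obtain ⟨hN, hsE, hconj⟩ := hM' s hs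
    obtain ⟨e0, s', hs', e⟩ := F.uΓ_small hN hconj x g
    have a1 : f x.out (g * s) = f x.out g := by
      have h6 := hlev x.out g 1 s (one_mem _)
        (IntermediateField.fixingSubgroup_antitone le_sup_left hsE)
      rwa [mul_one] at h6
    have a2 : f ((F.uΓ x g : GG) * (s' : GG)) (x * (g : F.Γ)).out =
        f (F.uΓ x g : GG) (x * (g : F.Γ)).out := by
      have h6 := hlev (F.uΓ x g : GG) (x * (g : F.Γ)).out s' 1
        (IntermediateField.fixingSubgroup_antitone le_sup_left hs') (one_mem _)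
      rwa [mul_one] at h6
    show ψ (F.uΓ x (g * s)) + F.corr2 f (g * s) x = ψ (F.uΓ x g) + F.corr2 f g x
    simp only [corr2, e0, e, Subgroup.coe_mul, a1, a2,
      hlev' _ _ (IntermediateField.fixingSubgroup_antitone le_sup_right hs')]
  · rw [F.z2_decomp hf.1 g h x, hψ]
    simp only [d1_apply, Pi.add_apply, Pi.sub_apply, MonoidHom.id_apply, coind_apply, F.uΓ_mul,
      QuotientGroup.mk_mul, ← mul_assoc x]
    abel

end SField

end FLTAgent.PoitouTate
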