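import Fermat.Agent.PoitouTate.Coind.Cup
import Fermat.Agent.PoitouTate.LocalDual.Kernel

/-!
# Duality for coinduced coefficients, from the field

The local pairings of coinduced coefficients are non degenerate, families orthogonal to the global
classes are global, and the spaces of classes of degree one are finite dimensional.
-/

set_option autoImplicit false
set_option linter.style.haveILetI false
set_option linter.unusedSectionVars false

noncomputable section

open scoped Pointwise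

namespace FLTAgent.PoitouTate

open FLTAgent FLTAgent.Lowering.P1 FLTAgent.Lowering.P1.Brauer

local notation "LL" => AlgebraicClosure ℚ
local notation "GG" => (AlgebraicClosure ℚ ≃ₐ[ℚ] AlgebraicClosure ℚ)
local notation "VS" => ValuationSubring (AlgebraicClosure ℚ)
local notation "Dec" => ValuationSubring.decompositionSubgroup ℚ

variable {p : ℕ} [Fact p.Prime] {S : Finset Nat.Primes} {A A' : Type} [AddCommGroup A]
  [Module (ZMod p) A] [AddCommGroup A'] [Module (ZMod p) A']

/-- A space of classes mapping with trivial kernel to a finite dimensional space. -/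
theorem finite_SH {M : Type} [AddCommGroup M] [Module (ZMod p) M] {M' : Type} [AddCommGroup M']
    [Module (ZMod p) M'] [FiniteDimensional (ZMod p) M'] (Z B : Submodule (ZMod p) M)
    (f : ↥Z →ₗ[ZMod p] M') (hker : ∀ z : ↥Z, f z = 0 → (z : M) ∈ B) :
    FiniteDimensional (ZMod p) (SH Z B) := by
  haveI : FiniteDimensional (ZMod p) (↥Z ⧸ LinearMap.ker f) :=
    f.quotKerEquivRange.symm.finiteDimensional
  exact Module.Finite.of_surjective (Submodule.factor (p := LinearMap.ker f)
    (p' := B.comap Z.subtype) fun z hz => hker z (LinearMap.mem_ker.1 hz))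
    (Submodule.factor_surjective _)

namespace SField

theorem homL_map {H : Subgroup GG} {α : ↥H → A} (hα : HomL A H α) (L : A →ₗ[ZMod p] A') :
    HomL A' H fun u => L (α u) :=
  ⟨fun m n => by dsimp only; rw [hα.1, map_add],
    let ⟨E, hE, h⟩ := hα.2; ⟨E, hE, fun g s hs => by dsimp only; rw [h g s hs]⟩⟩

variable (F : SField p S)

theorem hom1_map {α : ↥F.N → A} (hα : F.Hom1 α) (L : A →ₗ[ZMod p] A') :
    F.Hom1 fun u => L (α u) :=
  ⟨fun m n => by dsimp only; rw [hα.1, map_add],
    let ⟨E, hE, h⟩ := hα.2; ⟨E, hE, fun g s hs => by dsimp only; rw [h g s hs]⟩⟩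

theorem z1_of_homL {H : Subgroup GG} (hH : ∀ g ∈ H, om p g = 1) {γ : ↥H → ZMod p}
    (hγ : HomL (ZMod p) H γ) : γ ∈ Z1 (omRep p) H.subtype :=
  ⟨hγ.2, fun g h => by rw [omRep_apply, Subgroup.coe_subtype, hH _ g.2, one_mul, hγ.1]⟩

theorem homL_of_z1 {H : Subgroup GG} (hH : ∀ g ∈ H, om p g = 1) {γ : ↥H → ZMod p}
    (hγ : γ ∈ Z1 (omRep p) H.subtype) : HomL (ZMod p) H γ :=
  ⟨fun g h => by rw [hγ.2 g h, omRep_apply, Subgroup.coe_subtype, hH _ g.2, one_mul], hγ.1⟩

theorem om_mem_Hw (W : VS) : ∀ g ∈ F.Hw W, om p g = 1 :=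
  fun g hg => F.zeta g (Subgroup.mem_inf.1 hg).1

theorem z1S_of_hom1 {γ : ↥F.N → ZMod p} (hγ : F.Hom1 γ) :
    γ ∈ Z1S (omRep p) F.N.subtype S :=
  ⟨⟨levS_levC hγ.2, fun g h => by
    rw [omRep_apply, Subgroup.coe_subtype, F.zeta _ g.2, one_mul, hγ.1]⟩, hγ.2⟩

theorem hom1_of_z1S {γ : ↥F.N → ZMod p} (hγ : γ ∈ Z1S (omRep p) F.N.subtype S) : F.Hom1 γ :=
  ⟨fun g h => by rw [hγ.1.2 g h, omRep_apply, Subgroup.coe_subtype, F.zeta _ g.2, one_mul], hγ.2⟩

/-- The component of a global cocycle is its value at the origin. -/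
theorem comp_res {c : GG → F.Γ → A} (hc : c ∈ Z1 (F.coind A) (MonoidHom.id GG)) {W : VS}
    (o : F.Orb W) (u : ↥(F.Hw (F.pl o))) :
    F.comp o (res1 (p := p) (Dec W).subtype c) u = F.ev1 c (F.incl (F.pl o) u) := by
  have h := F.z1_conj hc (F.rr o) (m := (F.cvt o u : GG)) (Subgroup.mem_inf.1 (F.cvt o u).2).1 1
  rw [MonoidHom.id_apply, one_mul, mk_rr, coe_cvt] at h
  rw [comp_apply, res1_apply, ev1_apply, Subgroup.coe_subtype, coe_inD, coe_cvt, ← h]
  simp [mul_assoc]

variable (V : Nat.Primes → VS) (hV : ∀ q, (V q).LiesOverPrime (q : ℕ))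

theorem res_mem_Z1 {c : GG → F.Γ → A} (hc : c ∈ Z1 (F.coind A) (MonoidHom.id GG)) (W : VS) :
    res1 (p := p) (Dec W).subtype c ∈ Z1 (F.coind A) (Dec W).subtype :=
  res1_mem_Z1 (Dec W).subtype hc

variable [Fintype F.Γ] {ρ : Representation (ZMod p) GG A} {ρ' : Representation (ZMod p) GG A'}
  (P : DualPair ρ ρ') (hp2 : p ≠ 2)

include hV hp2 in
/-- The local pairings are non degenerate on the left. -/
theorem coind_leftNondeg (hF : FieldFacts F (F.placesAt V)) {q : Nat.Primes} (hq : q ∈ S)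
    {a : ↥(Dec (V q)) → F.Γ → A} (ha : a ∈ Z1 (F.coind A) (Dec (V q)).subtype)
    (horth : ∀ b ∈ Z1 (F.coind A') (Dec (V q)).subtype, invL p (V q) (Dec (V q))
      (cup (Dec (V q)).subtype (F.coindPair P).e (F.coind A') a b) = 0) :
    a ∈ B1 (F.coind A) (Dec (V q)).subtype := by
  classical
  refine F.mem_B1_of_comp ha fun o => funext fun u => P.left _ fun η => ?_
  have hα := F.homL_comp ha o
  refine congrFun (hF.localNondeg (F.pl o) (F.pl_mem_placesAt V hq o)
    (fun u => P.e (F.comp o a u) η)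
    (z1_of_homL (F.om_mem_Hw _) (homL_map hα (P.e.flip η))) fun γ hγ => ?_) u
  have hγη := homL_map (homL_of_z1 (F.om_mem_Hw _) hγ) (LinearMap.toSpanSingleton (ZMod p) A' η)
  have h := horth _ (F.shL_mem_Z1 hγη)
  rw [F.invL_cup P hp2 q.2 (hV q) ha (F.shL_mem_Z1 hγη),
    Finset.sum_eq_single o (fun o' _ ho' => ?_) (fun h => absurd (Finset.mem_univ o) h),
    (F.comp_shL hγη).1] at h
  · rw [F.cup_char (F.pl o)]
    refine Eq.trans (congrArg _ (funext fun x => funext fun y => ?_)) h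
    simp [pairC, LinearMap.toSpanSingleton_apply, mul_comm]
  · rw [(F.comp_shL hγη).2 o' ho', show pairC P.e (F.comp o' a) 0 = 0 from
      funext fun x => funext fun y => by simp [pairC]]
    exact invL_B2 hp2 q.2 (F.pl_lies hV q o') (F.localSub_Hw _) (Submodule.zero_mem _)

theorem coindPair_swap_e : (F.coindPair P.swap).e = (F.coindPair P).swap.e :=
  LinearMap.ext fun f => LinearMap.ext fun f' => by
    show F.coindE P.e.flip f f' = F.coindE P.e f' f
    simp only [coindE_apply, LinearMap.flip_apply]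

include hV hp2 in
/-- The local pairings are non degenerate on the right. -/
theorem coind_rightNondeg (hF : FieldFacts F (F.placesAt V)) {q : Nat.Primes} (hq : q ∈ S)
    {b : ↥(Dec (V q)) → F.Γ → A'} (hb : b ∈ Z1 (F.coind A') (Dec (V q)).subtype)
    (horth : ∀ a ∈ Z1 (F.coind A) (Dec (V q)).subtype, invL p (V q) (Dec (V q))
      (cup (Dec (V q)).subtype (F.coindPair P).e (F.coind A') a b) = 0) :
    b ∈ B1 (F.coind A') (Dec (V q)).subtype := by
  refine F.coind_leftNondeg V hV P.swap hp2 hF hq hb fun a ha => ?_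
  rw [F.coindPair_swap_e P, invL_swap (F.coindPair P) hp2 q.2 (hV q) localSub_self F.smooth_coind
    F.smooth_coind ha hb, horth a ha, neg_zero]

/-- The places of the field over `S`, indexed by orbits. -/
abbrev Idx : Type := Σ q : ↥S, F.Orb (V (q : Nat.Primes))

include hV in
theorem idx_bijective : Function.Bijective (fun i : F.Idx V =>
    (⟨F.pl i.2, F.pl_mem_placesAt V i.1.2 i.2⟩ : ↥(F.placesAt V))) := by
  refine ⟨fun i i' h => ?_, fun w => ?_⟩
  · have h' : F.pl i.2 = F.pl i'.2 := congrArg Subtype.val h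
    obtain ⟨⟨q, hq⟩, o⟩ := i
    obtain ⟨⟨q', hq'⟩, o'⟩ := i'
    have hqq : q = q' :=
      Subtype.ext (Brauer.prime_unique q.2 q'.2 (F.pl_lies hV q o) (h' ▸ F.pl_lies hV q' o'))
    subst hqq
    rw [F.pl_inj (o := o) (o' := o') ⟨1, one_mem _, by rw [one_smul]; exact h'⟩]
  · obtain ⟨q, hq, o, ho⟩ := F.exists_of_mem_placesAt V w.2
    exact ⟨⟨⟨q, hq⟩, o⟩, Subtype.ext ho⟩

variable [FiniteDimensional (ZMod p) A] [FiniteDimensional (ZMod p) A']

include hV hp2 in
/-- Families orthogonal to all global classes come from global classes. -/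
theorem coind_middle (hF : FieldFacts F (F.placesAt V))
    (r : (q : ↥S) → ↥(Dec (V q)) → F.Γ → A')
    (hr : ∀ q : ↥S, r q ∈ Z1 (F.coind A') (Dec (V (q : Nat.Primes))).subtype)
    (horth : ∀ a ∈ Z1S (F.coind A) (MonoidHom.id GG) S, ∑ q : ↥S, invL p (V q) (Dec (V q))
      (cup (Dec (V q)).subtype (F.coindPair P).e (F.coind A')
        (res1 (p := p) (Dec (V q)).subtype a) (r q)) = 0) :
    ∃ b ∈ Z1S (F.coind A') (MonoidHom.id GG) S, ∀ q : ↥S,
      res1 (p := p) (Dec (V q)).subtype b - r q ∈ B1 (F.coind A') (Dec (V q)).subtype := by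
  classical
  let eI : F.Idx V ≃ ↥(F.placesAt V) := Equiv.ofBijective _ (F.idx_bijective V hV)
  let ext0 : F.Idx V → GG → A' := fun i g =>
    if h : g ∈ F.Hw (F.pl i.2) then F.comp i.2 (r i.1) ⟨g, h⟩ else 0
  let rη : A → (w : ↥(F.placesAt V)) → ↥(F.Hw w) → ZMod p := fun η w u =>
    P.e η (ext0 (eI.symm w) u)
  have hrη : ∀ η i, rη η (eI i) = fun u : ↥(F.Hw (F.pl i.2)) => P.e η (F.comp i.2 (r i.1) u) :=
    fun η i => funext fun u => by
      show P.e η (ext0 (eI.symm (eI i)) (u : GG)) = _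
      rw [Equiv.symm_apply_apply]
      exact congrArg (P.e η) (dif_pos (show (u : GG) ∈ F.Hw (F.pl i.2) from u.2))
  have key : ∀ η : A, ∃ b ∈ Z1S (omRep p) F.N.subtype S, ∀ i : F.Idx V,
      res1 (p := p) (F.incl (F.pl i.2)) b = fun u => P.e η (F.comp i.2 (r i.1) u) := by
    intro η
    obtain ⟨b, hb, hbw⟩ := hF.middle (rη η) (fun w => by
      obtain ⟨i, rfl⟩ := eI.surjective w
      rw [hrη]
      exact z1_of_homL (F.om_mem_Hw _) (homL_map (F.homL_comp (hr i.1) i.2) (P.e η)))
      fun a ha => by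
        have hαη := F.hom1_map (F.hom1_of_z1S ha) (LinearMap.toSpanSingleton (ZMod p) A η)
        have h := horth _ (F.shG_mem_Z1S hαη)
        rw [← h, ← Fintype.sum_equiv eI (fun i => invL p (F.pl i.2) (F.Hw (F.pl i.2))
          (cup (F.Hw (F.pl i.2)).subtype (LinearMap.mul (ZMod p) (ZMod p)) (omRep p)
            (res1 (p := p) (F.incl (F.pl i.2)) a) (rη η (eI i)))) _ (fun i => rfl)]
        rw [Fintype.sum_sigma]
        refine Finset.sum_congr rfl fun q _ => ?_
        rw [F.invL_cup P hp2 q.1.2 (hV q) (F.res_mem_Z1 (F.shG_mem_Z1S hαη).1 (V q)) (hr q)]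
        refine Finset.sum_congr rfl fun o _ => congrArg _ ?_
        funext x y
        rw [hrη η ⟨q, o⟩, F.cup_char (F.pl o)]
        simp only [pairC]
        rw [F.comp_res (F.shG_mem_Z1S hαη).1, F.ev1_shG hαη]
        simp only [res1_apply, LinearMap.toSpanSingleton_apply, map_smul, LinearMap.smul_apply,
          smul_eq_mul]
    exact ⟨b, hb, fun i => (hbw (eI i)).trans (hrη η i)⟩
  choose b hb hbw using key
  let bb := Module.finBasis (ZMod p) A'
  choose η hη using fun i => P.surjective (bb.coord i)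
  have hαi : ∀ i, F.Hom1 fun n => LinearMap.toSpanSingleton (ZMod p) A' (bb i) (b (η i) n) :=
    fun i => F.hom1_map (F.hom1_of_z1S (hb (η i))) _
  set c : GG → F.Γ → A' := ∑ i, F.shG fun n =>
    LinearMap.toSpanSingleton (ZMod p) A' (bb i) (b (η i) n) with hc
  have hcZ : c ∈ Z1S (F.coind A') (MonoidHom.id GG) S :=
    Submodule.sum_mem _ fun i _ => F.shG_mem_Z1S (hαi i)
  refine ⟨c, hcZ, fun q => F.mem_B1_of_comp (Submodule.sub_mem _ (F.res_mem_Z1 hcZ.1 _) (hr q))
    fun o => funext fun u => ?_⟩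
  rw [map_sub, Pi.sub_apply, F.comp_res hcZ.1, Pi.zero_apply, sub_eq_zero, hc, map_sum,
    Finset.sum_apply]
  simp only [F.ev1_shG (hαi _)]
  conv_rhs => rw [← bb.sum_repr (F.comp o (r q) u)]
  refine Finset.sum_congr rfl fun i _ => ?_
  have h := congrFun (hbw (η i) ⟨q, o⟩) u
  rw [res1_apply, hη] at h
  rw [LinearMap.toSpanSingleton_apply, h, Module.Basis.coord_apply]

/-- The global classes of degree one are finite dimensional. -/
theorem coind_finiteGlobal (hfg : FiniteDimensional (ZMod p) ↥(Z1S (omRep p) F.N.subtype S)) :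
    FiniteDimensional (ZMod p)
      (SH (Z1S (F.coind A) (MonoidHom.id GG) S) (B1 (F.coind A) (MonoidHom.id GG))) := by
  haveI := hfg
  let bb := Module.finBasis (ZMod p) A
  refine finite_SH _ _ (LinearMap.pi fun i => LinearMap.codRestrict (Z1S (omRep p) F.N.subtype S)
    ((bb.coord i).compLeft ↥F.N ∘ₗ F.ev1 ∘ₗ Submodule.subtype _)
    fun c => F.z1S_of_hom1 (F.hom1_map (F.hom1_ev1 c.2) (bb.coord i))) fun c hc => ?_
  refine F.mem_B1_of_ev1 c.2.1 (funext fun n => bb.ext_elem fun i => ?_)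
  have h := congrFun (congrArg Subtype.val (congrFun hc i)) n
  rw [Pi.zero_apply, map_zero]
  exact h

/-- The local classes of degree one are finite dimensional. -/
theorem coind_finiteLocal (hF : FieldFacts F (F.placesAt V)) {q : Nat.Primes} (hq : q ∈ S) :
    FiniteDimensional (ZMod p)
      (SH (Z1 (F.coind A) (Dec (V q)).subtype) (B1 (F.coind A) (Dec (V q)).subtype)) := by
  haveI : ∀ o : F.Orb (V q),
      FiniteDimensional (ZMod p) ↥(Z1 (omRep p) (F.Hw (F.pl o)).subtype) := fun o =>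
    hF.finiteLocal _ (F.pl_mem_placesAt V hq o)
  let bb := Module.finBasis (ZMod p) A
  refine finite_SH _ _ (LinearMap.pi fun o : F.Orb (V q) => LinearMap.pi fun i =>
    LinearMap.codRestrict (Z1 (omRep p) (F.Hw (F.pl o)).subtype)
      ((bb.coord i).compLeft ↥(F.Hw (F.pl o)) ∘ₗ F.comp o ∘ₗ Submodule.subtype _)
      fun c => z1_of_homL (F.om_mem_Hw _) (homL_map (F.homL_comp c.2 o) (bb.coord i))) fun c hc => ?_
  refine F.mem_B1_of_comp c.2 fun o => funext fun u => bb.ext_elem fun i => ?_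
  have h := congrFun (congrArg Subtype.val (congrFun (congrFun hc o) i)) u
  rw [Pi.zero_apply, map_zero]
  exact h

end SField

end FLTAgent.PoitouTate
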