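import Fermat.Agent.PoitouTate.Coind.Global

/-!
# Local components of cochains with coinduced coefficients

The orbits of a decomposition group on the group of the field are the places of the field over the
given place; a one cocycle of the decomposition group with coinduced coefficients has a component
at each of them, and is a coboundary when all components vanish.
-/

set_option autoImplicit false
set_option linter.style.haveILetI false
set_option linter.unusedSectionVars false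

noncomputable section

open scoped Pointwise

namespace FLTAgent.PoitouTate

open FLTAgent FLTAgent.Lowering.P1 FLTAgent.Lowering.P1.Brauer
open FLTAgent.Lowering.P1.Loc (SameOrbit)

local notation "LL" => AlgebraicClosure ℚ
local notation "GG" => (AlgebraicClosure ℚ ≃ₐ[ℚ] AlgebraicClosure ℚ)
local notation "VS" => ValuationSubring (AlgebraicClosure ℚ)
local notation "Dec" => ValuationSubring.decompositionSubgroup ℚ

variable {p : ℕ} [Fact p.Prime] {S : Finset Nat.Primes} {A : Type} [AddCommGroup A]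
  [Module (ZMod p) A]

namespace SField

variable (F : SField p S) (W : VS)

/-- The decomposition group acting on the group of the field. -/
def embΓ : F.LQuo W →* F.Γ :=
  QuotientGroup.map (F.N.comap (Dec W).subtype) F.N (Dec W).subtype le_rfl

theorem embΓ_mk (g : ↥(Dec W)) : F.embΓ W (g : F.LQuo W) = ((g : GG) : F.Γ) := rfl

theorem embΓ_out (x : F.LQuo W) : (((x.out : ↥(Dec W)) : GG) : F.Γ) = F.embΓ W x := by
  rw [← F.embΓ_mk, QuotientGroup.out_eq']

theorem embΓ_injective : Function.Injective (F.embΓ W) := by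
  refine (injective_iff_map_eq_one _).2 fun x hx => ?_
  obtain ⟨g, rfl⟩ := QuotientGroup.mk'_surjective _ x
  exact (QuotientGroup.eq_one_iff g).2 ((QuotientGroup.eq_one_iff (N := F.N) (g : GG)).1 hx)

/-- The places of the field over a place. -/
abbrev Orb : Type := F.Γ ⧸ (F.embΓ W).range

instance orb_fintype : Fintype (F.Orb W) := Fintype.ofFinite _

/-- The group of the field is a union of orbits. -/
def orbEquiv : F.Orb W × F.LQuo W ≃ F.Γ :=
  Equiv.ofBijective (fun z => z.1.out * F.embΓ W z.2) ⟨fun z z' h => by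
    have h1 : ∀ (o : F.Orb W) x, ((o.out * F.embΓ W x : F.Γ) : F.Orb W) = o := fun o x =>
      (QuotientGroup.eq.2 (by
        rw [mul_inv_rev, inv_mul_cancel_right]
        exact inv_mem ⟨x, rfl⟩)).trans (QuotientGroup.out_eq' o)
    have h2 : z.1 = z'.1 := by rw [← h1 z.1 z.2, ← h1 z'.1 z'.2]; exact congrArg _ h
    exact Prod.ext h2 (F.embΓ_injective W (mul_left_cancel (a := z.1.out) (by simpa [h2] using h))),
    fun y => by
      obtain ⟨x, hx⟩ := QuotientGroup.eq.1 (QuotientGroup.out_eq' (y : F.Orb W))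
      exact ⟨((y : F.Orb W), x), by
        show (y : F.Orb W).out * F.embΓ W x = y
        rw [hx, mul_inv_cancel_left]⟩⟩

theorem orbEquiv_apply (o : F.Orb W) (x : F.LQuo W) :
    F.orbEquiv W (o, x) = o.out * F.embΓ W x := rfl

theorem orbEquiv_mul (o : F.Orb W) (x : F.LQuo W) (g : ↥(Dec W)) :
    F.orbEquiv W (o, x) * ((g : GG) : F.Γ) = F.orbEquiv W (o, x * (g : F.LQuo W)) := by
  rw [orbEquiv_apply, orbEquiv_apply, map_mul, ← F.embΓ_mk, mul_assoc]

theorem orbEquiv_one (o : F.Orb W) : F.orbEquiv W (o, 1) = o.out := by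
  rw [orbEquiv_apply, map_one, mul_one]

variable {W}

/-- A representative of an orbit. -/
def rr (o : F.Orb W) : GG := (o.out : F.Γ).out

theorem mk_rr (o : F.Orb W) : (F.rr o : F.Γ) = o.out := QuotientGroup.out_eq' _

/-- The place of the field at an orbit. -/
def pl (o : F.Orb W) : VS := F.rr o • W

theorem mem_Hw_pl (o : F.Orb W) {g : GG} :
    g ∈ F.Hw (F.pl o) ↔ (F.rr o)⁻¹ * g * F.rr o ∈ F.Hw W := by
  rw [Subgroup.mem_inf, Subgroup.mem_inf]
  exact and_congr ⟨fun h => by simpa using F.conj_mem (F.rr o)⁻¹ h,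
    fun h => by simpa [mul_assoc] using F.conj_mem (F.rr o) h⟩ mem_dec_smul

/-- Conjugation to the given place. -/
def cvt (o : F.Orb W) : ↥(F.Hw (F.pl o)) →* ↥(F.Hw W) where
  toFun u := ⟨(F.rr o)⁻¹ * u * F.rr o, (F.mem_Hw_pl o).1 u.2⟩
  map_one' := Subtype.ext (by simp)
  map_mul' u v := Subtype.ext (by simp [mul_assoc])

theorem coe_cvt (o : F.Orb W) (u : ↥(F.Hw (F.pl o))) :
    (F.cvt o u : GG) = (F.rr o)⁻¹ * u * F.rr o := rfl

/-- Conjugation from the given place. -/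
def cvtInv (o : F.Orb W) (u : ↥(F.Hw W)) : ↥(F.Hw (F.pl o)) :=
  ⟨F.rr o * u * (F.rr o)⁻¹, (F.mem_Hw_pl o).2 (by simp [mul_assoc])⟩

theorem cvtInv_cvt (o : F.Orb W) (u : ↥(F.Hw (F.pl o))) : F.cvtInv o (F.cvt o u) = u :=
  Subtype.ext (by simp [cvtInv, coe_cvt, mul_assoc])

theorem cvt_cvtInv (o : F.Orb W) (u : ↥(F.Hw W)) : F.cvt o (F.cvtInv o u) = u :=
  Subtype.ext (by simp [cvtInv, coe_cvt, mul_assoc])

theorem cvtInv_mul (o : F.Orb W) (u v : ↥(F.Hw W)) :
    F.cvtInv o (u * v) = F.cvtInv o u * F.cvtInv o v :=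
  Subtype.ext (by simp [cvtInv, mul_assoc])

variable (W) in
/-- The part in the group of the field inside the decomposition group. -/
def inD : ↥(F.Hw W) →* ↥(Dec W) := Subgroup.inclusion inf_le_right

theorem coe_inD (u : ↥(F.Hw W)) : (F.inD W u : GG) = u := rfl

theorem inD_uH (x : F.LQuo W) (g : ↥(Dec W)) :
    F.inD W (F.uH W x g) = F.uG (Dec W).subtype x g := rfl

/-- The component of a one cochain at an orbit. -/
def comp (o : F.Orb W) : (↥(Dec W) → F.Γ → A) →ₗ[ZMod p] ↥(F.Hw (F.pl o)) → A :=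
  LinearMap.pi fun u => (LinearMap.proj (o.out : F.Γ)) ∘ₗ LinearMap.proj (F.inD W (F.cvt o u))

theorem comp_apply (o : F.Orb W) (a : ↥(Dec W) → F.Γ → A) (u : ↥(F.Hw (F.pl o))) :
    F.comp o a u = a (F.inD W (F.cvt o u)) o.out := rfl

theorem comp_cvtInv (o : F.Orb W) (a : ↥(Dec W) → F.Γ → A) (u : ↥(F.Hw W)) :
    F.comp o a (F.cvtInv o u) = a (F.inD W u) o.out := by
  rw [comp_apply, F.cvt_cvtInv]

variable (A) in
/-- An additive one cochain on the part in the group of the field. -/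
def HomL (H : Subgroup GG) (γ : ↥H → A) : Prop :=
  (∀ m n, γ (m * n) = γ m + γ n) ∧ LevC H.subtype γ

theorem homL_conj {H : Subgroup GG} {γ : ↥H → A} (hγ : HomL A H γ) (n m : ↥H) :
    γ (n * m * n⁻¹) = γ m := by
  have h1 : γ 1 = 0 := by
    have h := hγ.1 1 1
    rwa [one_mul, left_eq_add] at h
  have h2 : γ n + γ n⁻¹ = 0 := by rw [← hγ.1, mul_inv_cancel, h1]
  rw [hγ.1, hγ.1, add_right_comm, h2, zero_add]

theorem homL_comp {a : ↥(Dec W) → F.Γ → A} (ha : a ∈ Z1 (F.coind A) (Dec W).subtype)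
    (o : F.Orb W) : HomL A (F.Hw (F.pl o)) (F.comp o a) := by
  refine ⟨fun u v => ?_, ?_⟩
  · rw [comp_apply, map_mul, map_mul, F.z1_apply ha, Subgroup.coe_subtype, coe_inD,
      F.mk_mem_one (Subgroup.mem_inf.1 (F.cvt o u).2).1, mul_one]
    rfl
  · obtain ⟨E, hE, hlev⟩ := ha.1
    obtain ⟨M, hM, hMn, hle⟩ := exists_normal_le E
    refine ⟨M, hM, fun g s hs => ?_⟩
    rw [comp_apply, comp_apply, map_mul, map_mul]
    refine congrFun (hlev _ _ ?_) _
    refine IntermediateField.fixingSubgroup_antitone hle ?_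
    simpa [coe_inD, coe_cvt] using fix_conj hs (F.rr o)

theorem homL_cvtInv {o : F.Orb W} {γ : ↥(F.Hw (F.pl o)) → A}
    (hγ : HomL A (F.Hw (F.pl o)) γ) : HomL A (F.Hw W) fun u => γ (F.cvtInv o u) := by
  refine ⟨fun u v => by dsimp only; rw [F.cvtInv_mul, hγ.1], ?_⟩
  obtain ⟨E, hE, hlev⟩ := hγ.2
  obtain ⟨M, hM, hMn, hle⟩ := exists_normal_le E
  refine ⟨M, hM, fun g s hs => ?_⟩
  dsimp only
  rw [F.cvtInv_mul]
  refine hlev _ _ (IntermediateField.fixingSubgroup_antitone hle ?_)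
  simpa [cvtInv] using fix_conj hs (F.rr o)⁻¹

/-- A cocycle from its components, up to a coboundary. -/
theorem z1_decomp {a : ↥(Dec W) → F.Γ → A} (ha : a ∈ Z1 (F.coind A) (Dec W).subtype)
    (o : F.Orb W) (x : F.LQuo W) (g : ↥(Dec W)) :
    a g (F.orbEquiv W (o, x)) = a (F.inD W (F.uH W x g)) o.out +
      (a (x * (g : F.LQuo W)).out o.out - a x.out o.out) := by
  have h1 := F.z1_apply ha x.out g o.out
  have h2 := F.z1_apply ha (F.inD W (F.uH W x g)) (x * (g : F.LQuo W)).out o.out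
  have e0 : F.inD W (F.uH W x g) * (x * (g : F.LQuo W)).out = x.out * g :=
    F.uG_mul_out (Dec W).subtype x g
  rw [e0, h1, Subgroup.coe_subtype, coe_inD, F.mk_mem_one (Subgroup.mem_inf.1 (F.uH W x g).2).1,
    mul_one, F.embΓ_out] at h2
  rw [orbEquiv_apply, ← add_sub_assoc, ← h2, add_sub_cancel_left]

/-- A cocycle whose components vanish is a coboundary. -/
theorem mem_B1_of_comp {a : ↥(Dec W) → F.Γ → A} (ha : a ∈ Z1 (F.coind A) (Dec W).subtype)
    (h0 : ∀ o : F.Orb W, F.comp o a = 0) : a ∈ B1 (F.coind A) (Dec W).subtype := by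
  refine ⟨fun y => a ((F.orbEquiv W).symm y).2.out ((F.orbEquiv W).symm y).1.out,
    funext fun g => funext fun y => ?_⟩
  obtain ⟨⟨o, x⟩, rfl⟩ := (F.orbEquiv W).surjective y
  rw [d0_apply, Pi.sub_apply, coind_apply, Subgroup.coe_subtype]
  rw [F.orbEquiv_mul, Equiv.symm_apply_apply, Equiv.symm_apply_apply, F.z1_decomp ha o x g]
  rw [← F.comp_cvtInv o a, h0, Pi.zero_apply, zero_add]

theorem comp_B1 {a : ↥(Dec W) → F.Γ → A} (ha : a ∈ B1 (F.coind A) (Dec W).subtype)
    (o : F.Orb W) : F.comp o a = 0 := by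
  obtain ⟨f, rfl⟩ := ha
  funext u
  show f (o.out * ((F.cvt o u : GG) : F.Γ)) - f o.out = 0
  rw [F.mk_mem_one (Subgroup.mem_inf.1 (F.cvt o u).2).1, mul_one, sub_self]

open Classical in
/-- The cochain with one given component. -/
def shL (o : F.Orb W) (γ : ↥(F.Hw (F.pl o)) → A) (g : ↥(Dec W)) (y : F.Γ) : A :=
  if ((F.orbEquiv W).symm y).1 = o then
    γ (F.cvtInv o (F.uH W ((F.orbEquiv W).symm y).2 g))
  else 0

theorem shL_mem_Z1 {o : F.Orb W} {γ : ↥(F.Hw (F.pl o)) → A} (hγ : HomL A (F.Hw (F.pl o)) γ) :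
    F.shL o γ ∈ Z1 (F.coind A) (Dec W).subtype := by
  classical
  refine ⟨?_, fun g h => funext fun y => ?_⟩
  · obtain ⟨E, hE, hlev⟩ := (F.homL_cvtInv hγ).2
    obtain ⟨M, hM, hM'⟩ := F.exists_level W E
    refine ⟨M, hM, fun g s hs => funext fun y => ?_⟩
    obtain ⟨-, s', hs', e⟩ := hM' ((F.orbEquiv W).symm y).2 g s hs
    simp only [shL, e]
    exact congrArg (fun a => if ((F.orbEquiv W).symm y).1 = o then a else 0) (hlev _ _ hs')
  · obtain ⟨⟨o', x⟩, rfl⟩ := (F.orbEquiv W).surjective y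
    simp only [Pi.add_apply, Subgroup.coe_subtype, coind_apply, F.orbEquiv_mul, shL,
      Equiv.symm_apply_apply]
    split_ifs with h'
    · rw [F.uH_mul]
      exact (F.homL_cvtInv hγ).1 _ _
    · rw [add_zero]

theorem comp_shL {o : F.Orb W} {γ : ↥(F.Hw (F.pl o)) → A} (hγ : HomL A (F.Hw (F.pl o)) γ) :
    F.comp o (F.shL o γ) = γ ∧ ∀ o', o' ≠ o → F.comp o' (F.shL o γ) = 0 := by
  classical
  have h : ∀ (o' : F.Orb W), (F.orbEquiv W).symm (o'.out : F.Γ) = (o', 1) := fun o' => by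
    rw [Equiv.symm_apply_eq, F.orbEquiv_one]
  refine ⟨funext fun u => ?_, fun o' ho => funext fun u => ?_⟩
  · rw [comp_apply, shL, h, if_pos rfl]
    have hr : (((1 : F.LQuo W).out : ↥(Dec W)) : GG) ∈ F.Hw W :=
      Subgroup.mem_inf.2 ⟨(QuotientGroup.eq_one_iff (N := F.N.comap (Dec W).subtype) _).1
        (QuotientGroup.out_eq' (1 : F.LQuo W)), ((1 : F.LQuo W).out).2⟩
    have e : F.uH W 1 (F.inD W (F.cvt o u)) = ⟨_, hr⟩ * F.cvt o u * ⟨_, hr⟩⁻¹ :=
      Subtype.ext (by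
        rw [coe_uH, F.uG_mem_apply _ _ (Subgroup.mem_inf.1 (F.cvt o u).2).1]
        rfl)
    rw [e]
    exact (homL_conj (F.homL_cvtInv hγ) _ _).trans (congrArg γ (F.cvtInv_cvt o u))
  · rw [comp_apply, shL, h, if_neg ho]
    rfl

/-! ### The system of places -/

/-- Orbits are separated by the places. -/
theorem pl_inj {o o' : F.Orb W} (h : SameOrbit F.N (F.pl o) (F.pl o')) : o = o' := by
  obtain ⟨σ, hσ, hσo⟩ := h
  have hd : (F.rr o')⁻¹ * σ * F.rr o ∈ Dec W := by
    show ((F.rr o')⁻¹ * σ * F.rr o) • W = W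
    rw [mul_smul, mul_smul, show σ • F.rr o • W = F.rr o' • W from hσo, inv_smul_smul]
  rw [← QuotientGroup.out_eq' o, ← QuotientGroup.out_eq' o', eq_comm]
  refine QuotientGroup.eq.2 ⟨((⟨_, hd⟩ : ↥(Dec W)) : F.LQuo W), ?_⟩
  rw [F.embΓ_mk, QuotientGroup.mk_mul, QuotientGroup.mk_mul, QuotientGroup.mk_inv,
    F.mk_mem_one hσ, mk_rr, mk_rr, mul_one]

theorem exists_pl (g : GG) : ∃ o : F.Orb W, SameOrbit F.N (F.pl o) (g • W) := by
  obtain ⟨⟨o, x⟩, hox⟩ := (F.orbEquiv W).surjective (g : F.Γ)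
  refine ⟨o, g * (F.rr o * (x.out : GG))⁻¹, (QuotientGroup.eq_one_iff _).1 ?_, ?_⟩
  · rw [QuotientGroup.mk_mul, QuotientGroup.mk_inv, QuotientGroup.mk_mul, mk_rr, F.embΓ_out,
      ← F.orbEquiv_apply, hox, mul_inv_cancel]
  · show (g * (F.rr o * (x.out : GG))⁻¹) • F.rr o • W = g • W
    rw [mul_inv_rev, smul_smul, ← mul_assoc g, inv_mul_cancel_right, mul_smul]
    refine congrArg (g • ·) ?_
    rw [inv_smul_eq_iff]
    exact ((x.out : ↥(Dec W)).2).symm

open Classical in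
/-- The places of the field over `S`. -/
def placesAt (V : Nat.Primes → VS) : Finset VS :=
  S.biUnion fun q => (Finset.univ : Finset (F.Orb (V q))).image F.pl

theorem pl_mem_placesAt (V : Nat.Primes → VS) {q : Nat.Primes} (hq : q ∈ S) (o : F.Orb (V q)) :
    F.pl o ∈ F.placesAt V := by
  classical
  exact Finset.mem_biUnion.2 ⟨q, hq, Finset.mem_image.2 ⟨o, Finset.mem_univ _, rfl⟩⟩

theorem exists_of_mem_placesAt (V : Nat.Primes → VS) {w : VS} (hw : w ∈ F.placesAt V) :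
    ∃ q ∈ S, ∃ o : F.Orb (V q), F.pl o = w := by
  classical
  obtain ⟨q, hq, hw⟩ := Finset.mem_biUnion.1 hw
  obtain ⟨o, -, ho⟩ := Finset.mem_image.1 hw
  exact ⟨q, hq, o, ho⟩

variable {V : Nat.Primes → VS} (hV : ∀ q, (V q).LiesOverPrime (q : ℕ))

include hV in
theorem pl_lies (q : Nat.Primes) (o : F.Orb (V q)) : (F.pl o).LiesOverPrime (q : ℕ) :=
  Places.liesOverPrime_smul _ _ (hV q)

include hV in
theorem splaces_placesAt : SPlaces F (F.placesAt V) := by
  refine ⟨⟨fun w hw => ?_, fun w hw w' hw' h => ?_⟩, fun l W hl hW => ⟨?_, ?_⟩⟩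
  · obtain ⟨q, -, o, rfl⟩ := F.exists_of_mem_placesAt V hw
    exact ⟨q, q.2, F.pl_lies hV q o⟩
  · obtain ⟨q, -, o, rfl⟩ := F.exists_of_mem_placesAt V hw
    obtain ⟨q', -, o', rfl⟩ := F.exists_of_mem_placesAt V hw'
    have hqq : q = q' := by
      obtain ⟨σ, -, hσ⟩ := h
      exact Subtype.ext (Brauer.prime_unique q.2 q'.2
        (hσ ▸ Places.liesOverPrime_smul _ σ (F.pl_lies hV q o)) (F.pl_lies hV q' o'))
    subst hqq
    rw [F.pl_inj h]
  · rintro ⟨w, hw, σ, -, hσ⟩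
    obtain ⟨q, hq, o, rfl⟩ := F.exists_of_mem_placesAt V hw
    exact ⟨q, hq, Brauer.prime_unique q.2 hl
      (hσ ▸ Places.liesOverPrime_smul _ σ (F.pl_lies hV q o)) hW⟩
  · rintro ⟨q, hq, rfl⟩
    obtain ⟨g, rfl⟩ := Places.exists_smul_eq hl (hV q) hW
    obtain ⟨o, ho⟩ := F.exists_pl (W := V q) g
    exact ⟨_, F.pl_mem_placesAt V hq o, ho⟩

end SField

end FLTAgent.PoitouTate
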