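import Fermat.Agent.PoitouTate.Coind.Local

/-!
# Locally trivial classes with coinduced coefficients

Their dimension in degree two is at most their dimension in degree one for the dual coefficients,
when this holds for the trivial coefficients over the field.
-/

set_option autoImplicit false
set_option linter.style.haveILetI false
set_option linter.unusedSectionVars false

noncomputable section

open scoped Pointwise

namespace FLTAgent.PoitouTate

open FLTAgent FLTAgent.Lowering.P1 FLTAgent.Lowering.P1.Brauer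

local notation "LL" => AlgebraicClosure ℚ
local notation "GG" => (AlgebraicClosure ℚ ≃ₐ[ℚ] AlgebraicClosure ℚ)
local notation "VS" => ValuationSubring (AlgebraicClosure ℚ)
local notation "Dec" => ValuationSubring.decompositionSubgroup ℚ

variable {p : ℕ} [Fact p.Prime] {S : Finset Nat.Primes} {A A' : Type} [AddCommGroup A]
  [Module (ZMod p) A] [AddCommGroup A'] [Module (ZMod p) A']

/-- A space of classes is at most as large as the target of a map with small kernel. -/
theorem finrank_SH_le {M : Type} [AddCommGroup M] [Module (ZMod p) M] {M' : Type} [AddCommGroup M']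
    [Module (ZMod p) M'] [FiniteDimensional (ZMod p) M'] (Z B : Submodule (ZMod p) M)
    (f : ↥Z →ₗ[ZMod p] M') (hker : ∀ z : ↥Z, f z = 0 → (z : M) ∈ B) :
    Module.finrank (ZMod p) (SH Z B) ≤ Module.finrank (ZMod p) M' := by
  haveI : FiniteDimensional (ZMod p) (↥Z ⧸ LinearMap.ker f) :=
    f.quotKerEquivRange.symm.finiteDimensional
  refine le_trans ?_ ((f.quotKerEquivRange.finrank_eq).trans_le (Submodule.finrank_le _))
  set π := Submodule.factor (p := LinearMap.ker f) (p' := B.comap Z.subtype)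
    fun z hz => hker z (LinearMap.mem_ker.1 hz)
  have h := LinearMap.finrank_range_le π
  rwa [LinearMap.range_eq_top.2 (Submodule.factor_surjective _), finrank_top] at h

namespace SField

variable (F : SField p S)

/-- The coinduced one cochain, linearly. -/
def shGL : (↥F.N → A) →ₗ[ZMod p] GG → F.Γ → A :=
  LinearMap.pi fun g => LinearMap.pi fun x => LinearMap.proj (F.uΓ x g)

theorem shGL_apply (α : ↥F.N → A) : F.shGL α = F.shG α := rfl

theorem zero_of_mem_B1_omRep {W : VS} {γ : ↥(F.Hw W) → ZMod p}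
    (h : γ ∈ B1 (omRep p) (F.Hw W).subtype) : γ = 0 := by
  obtain ⟨a, rfl⟩ := h
  funext u
  rw [d0_apply, omRep_apply, Subgroup.coe_subtype, F.om_mem_Hw W _ u.2, one_mul, sub_self]
  rfl

theorem ev1_sha_mem {γ : ↥F.N → ZMod p} {R : Finset VS} (hγ : γ ∈ Sha1N F R) :
    γ ∈ Z1S (omRep p) F.N.subtype S ∧ ∀ w ∈ R, res1 (p := p) (F.incl w) γ = 0 := by
  obtain ⟨h1, h2⟩ := Submodule.mem_inf.1 hγ
  simp only [Submodule.mem_iInf] at h2
  exact ⟨h1, fun w hw => F.zero_of_mem_B1_omRep (h2 w hw)⟩

/-- A two cocycle over the field from a global one. -/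
theorem ev2_mem_Sha2N (V : Nat.Primes → VS) {f : GG → GG → F.Γ → A}
    (hf : f ∈ Sha2 (F.coind A) S V) (L : A →ₗ[ZMod p] ZMod p) :
    (fun m n : ↥F.N => L (F.ev2 f m n)) ∈ Sha2N F (F.placesAt V) := by
  obtain ⟨⟨hf1, hf2⟩, hloc⟩ := Submodule.mem_inf.1 hf
  simp only [Submodule.mem_iInf, Submodule.mem_comap] at hloc
  have hlev : LevS₂ F.N.subtype S fun m n : ↥F.N => L (F.ev2 f m n) := by
    obtain ⟨E, hE, hl⟩ := hf2
    exact ⟨E, hE, fun g h s t hs ht =>
      congrArg L (congrFun (hl (g : GG) (h : GG) (s : GG) (t : GG) hs ht) 1)⟩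
  refine Submodule.mem_inf.2 ⟨⟨⟨?_, fun a b c => ?_⟩, hlev⟩, ?_⟩
  · obtain ⟨E, hE, hl⟩ := hlev
    exact ⟨E, hE.1, hl⟩
  · have h := F.z2_apply hf1 (a : GG) (b : GG) (c : GG)
    rw [F.mk_mem_one a.2] at h
    have h' := congrArg L h
    simp only [map_add, map_sub, map_zero] at h'
    rw [omRep_apply, Subgroup.coe_subtype, F.zeta _ a.2, one_mul]
    exact h'
  · simp only [Submodule.mem_iInf, Submodule.mem_comap]
    intro w hw
    obtain ⟨q, hq, o, rfl⟩ := F.exists_of_mem_placesAt V hw
    obtain ⟨k, hk, hfk⟩ := hloc q hq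
    refine ⟨fun u => L (k (F.inD (V q) (F.cvt o u)) o.out -
      (f (F.rr o) (F.cvt o u : GG) 1 - f (u : GG) (F.rr o) 1)), ?_, ?_⟩
    · obtain ⟨E1, hE1, hl1⟩ := hk
      obtain ⟨E2, hE2, hl2⟩ := hf1.1
      obtain ⟨M, hM, hMn, hle⟩ := exists_normal_le (E1 ⊔ E2)
      refine ⟨M, hM, fun g s hs => ?_⟩
      have hs1 : (F.cvt o s : GG) ∈ (E1 ⊔ E2).fixingSubgroup :=
        IntermediateField.fixingSubgroup_antitone hle (by
          simpa [coe_cvt] using fix_conj hs (F.rr o))
      have hs2 : (s : GG) ∈ (E1 ⊔ E2).fixingSubgroup :=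
        IntermediateField.fixingSubgroup_antitone hle hs
      have a1 : f (F.rr o) ((F.cvt o g : GG) * (F.cvt o s : GG)) = f (F.rr o) (F.cvt o g : GG) := by
        have h6 := hl2 (F.rr o) (F.cvt o g : GG) 1 (F.cvt o s : GG) (one_mem _)
          (IntermediateField.fixingSubgroup_antitone le_sup_right hs1)
        rwa [mul_one] at h6
      have a2 : f ((g : GG) * (s : GG)) (F.rr o) = f (g : GG) (F.rr o) := by
        have h6 := hl2 (g : GG) (F.rr o) (s : GG) 1
          (IntermediateField.fixingSubgroup_antitone le_sup_right hs2) (one_mem _)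
        rwa [mul_one] at h6
      simp only [map_mul, Subgroup.coe_mul, a1, a2]
      rw [hl1 _ (F.inD (V q) (F.cvt o s)) (IntermediateField.fixingSubgroup_antitone le_sup_left
        (by simpa [coe_inD] using hs1))]
    · funext u v
      have hu := (Subgroup.mem_inf.1 (F.cvt o u).2).1
      have hv := (Subgroup.mem_inf.1 (F.cvt o v).2).1
      have h1 := F.z2_conj hf1 (F.rr o) hu hv
      have h2 := congrFun (congrFun (congrFun hfk (F.inD (V q) (F.cvt o u)))
        (F.inD (V q) (F.cvt o v))) o.out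
      simp only [d1_apply, Pi.add_apply, Pi.sub_apply, res2_apply, Subgroup.coe_subtype, coind_apply,
        coe_inD, F.mk_mem_one hu, mul_one] at h2
      have e : ∀ z : ↥(F.Hw (F.pl o)), F.rr o * (F.cvt o z : GG) * (F.rr o)⁻¹ = z := fun z => by
        simp [coe_cvt, mul_assoc]
      have e2 : F.rr o * ((F.cvt o u : GG) * (F.cvt o v : GG)) * (F.rr o)⁻¹ =
          ((u : GG) * (v : GG)) := by
        simp [coe_cvt, mul_assoc]
      rw [mk_rr, e, e, e2, ← h2] at h1
      rw [d1_apply, omRep_apply, Subgroup.coe_subtype, F.om_mem_Hw _ _ u.2, one_mul, res2_apply]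
      show _ = L (f (u : GG) (v : GG) 1)
      simp only [map_mul, Subgroup.coe_mul, ← map_sub, ← map_add]
      refine congrArg L ?_
      linear_combination (norm := abel) h1

variable (V : Nat.Primes → VS) [Fintype F.Γ] {ρ : Representation (ZMod p) GG A}
  {ρ' : Representation (ZMod p) GG A'} (P : DualPair ρ ρ') [FiniteDimensional (ZMod p) A]
  [FiniteDimensional (ZMod p) A']

/-- The coordinates of a two cocycle over the field. -/
def shaMap : ↥(Sha2 (F.coind A) S V) →ₗ[ZMod p]
    Fin (Module.finrank (ZMod p) A) → SH (Sha2N F (F.placesAt V)) (B2S (omRep p) F.N.subtype S) :=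
  LinearMap.pi fun i => Submodule.mkQ _ ∘ₗ LinearMap.codRestrict (Sha2N F (F.placesAt V))
    ((((Module.finBasis (ZMod p) A).coord i).compLeft ↥F.N).compLeft ↥F.N ∘ₗ F.ev2 ∘ₗ
      Submodule.subtype _) fun f => F.ev2_mem_Sha2N V f.2 ((Module.finBasis (ZMod p) A).coord i)

theorem shaMap_ker (z : ↥(Sha2 (F.coind A) S V)) (h : F.shaMap V z = 0) :
    (z : GG → GG → F.Γ → A) ∈ B2S (F.coind A) (MonoidHom.id GG) S := by
  set bb := Module.finBasis (ZMod p) A
  have hi : ∀ i, ∃ k ∈ C1S (p := p) (A := ZMod p) F.N.subtype S,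
      d1 (omRep p) F.N.subtype k = fun m n : ↥F.N => bb.coord i (F.ev2 z.1 m n) := fun i => by
    exact (Submodule.Quotient.mk_eq_zero _).1 (congrFun h i)
  choose k hk hke using hi
  refine F.mem_B2S_of_ev2 (Submodule.mem_inf.1 z.2).1 (ψ := fun n => ∑ i, k i n • bb i) ?_
    fun m n => bb.ext_elem fun j => ?_
  · have h0 : (∑ i, fun n => k i n • bb i) ∈ C1S (p := p) (A := A) F.N.subtype S :=
      Submodule.sum_mem _ fun i _ =>
        let ⟨E, hE, hl⟩ := hk i; ⟨E, hE, fun g s hs => by dsimp only; rw [hl g s hs]⟩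
    have e : (∑ i, fun n => k i n • bb i) = fun n => ∑ i, k i n • bb i :=
      funext fun n => Finset.sum_apply _ _ _
    rw [e] at h0
    exact h0
  · have hj := congrFun (congrFun (hke j) m) n
    simp only [d1_apply, omRep_apply, Subgroup.coe_subtype, F.zeta _ m.2, one_mul,
      Module.Basis.coord_apply] at hj
    simp only [map_add, map_sub, Finsupp.coe_add, Finsupp.coe_sub, Pi.add_apply, Pi.sub_apply,
      bb.repr_sum_self]
    exact hj.symm

/-- The locally trivial classes of degree one are finite dimensional. -/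
theorem coind_sha1_finite (hfg : FiniteDimensional (ZMod p) ↥(Z1S (omRep p) F.N.subtype S)) :
    FiniteDimensional (ZMod p) (SH (Sha1 (F.coind A) S V) (B1 (F.coind A) (MonoidHom.id GG))) := by
  haveI := hfg
  let bb := Module.finBasis (ZMod p) A
  refine finite_SH _ _ (LinearMap.pi fun i => LinearMap.codRestrict (Z1S (omRep p) F.N.subtype S)
    ((bb.coord i).compLeft ↥F.N ∘ₗ F.ev1 ∘ₗ Submodule.subtype _)
    fun c => F.z1S_of_hom1 (F.hom1_map (F.hom1_ev1 (Submodule.mem_inf.1 c.2).1) (bb.coord i)))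
      fun c hc => ?_
  refine F.mem_B1_of_ev1 (Submodule.mem_inf.1 c.2).1.1 (funext fun n => bb.ext_elem fun i => ?_)
  have h := congrFun (congrArg Subtype.val (congrFun hc i)) n
  rw [Pi.zero_apply, map_zero]
  exact h

/-- The lower bound in degree one. -/
theorem coind_sha1_ge (hfg : FiniteDimensional (ZMod p) ↥(Z1S (omRep p) F.N.subtype S)) :
    Module.finrank (ZMod p) A' * Module.finrank (ZMod p) ↥(Sha1N F (F.placesAt V)) ≤
      Module.finrank (ZMod p)
        (SH (Sha1 (F.coind A') S V) (B1 (F.coind A') (MonoidHom.id GG))) := by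
  haveI := hfg
  haveI : FiniteDimensional (ZMod p) ↥(Sha1N F (F.placesAt V)) :=
    Submodule.finiteDimensional_of_le inf_le_left
  haveI := F.coind_sha1_finite V (A := A') hfg
  set bb := Module.finBasis (ZMod p) A'
  have hH : ∀ (α : ↥(Sha1N F (F.placesAt V))) i,
      F.Hom1 fun n => LinearMap.toSpanSingleton (ZMod p) A' (bb i) (α.1 n) := fun α i =>
    F.hom1_map (F.hom1_of_z1S (F.ev1_sha_mem α.2).1) _
  let g : (Fin (Module.finrank (ZMod p) A') → ↥(Sha1N F (F.placesAt V))) →ₗ[ZMod p]
      GG → F.Γ → A' :=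
    ∑ i, F.shGL ∘ₗ (LinearMap.toSpanSingleton (ZMod p) A' (bb i)).compLeft ↥F.N ∘ₗ
      Submodule.subtype _ ∘ₗ LinearMap.proj i
  have hg : ∀ α, g α = ∑ i, F.shG fun n => LinearMap.toSpanSingleton (ZMod p) A' (bb i) ((α i).1 n) :=
    fun α => by
      simp only [g, LinearMap.sum_apply, LinearMap.comp_apply, LinearMap.proj_apply, shGL_apply]
      rfl
  have hmem : ∀ α, g α ∈ Sha1 (F.coind A') S V := fun α => by
    rw [hg]
    refine Submodule.sum_mem _ fun i _ => Submodule.mem_inf.2 ⟨F.shG_mem_Z1S (hH (α i) i), ?_⟩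
    simp only [Submodule.mem_iInf, Submodule.mem_comap]
    intro q hq
    refine F.mem_B1_of_comp (F.res_mem_Z1 (F.shG_mem_Z1S (hH (α i) i)).1 _) fun o => funext fun u => ?_
    rw [F.comp_res (F.shG_mem_Z1S (hH (α i) i)).1, F.ev1_shG (hH (α i) i)]
    have h := congrFun ((F.ev1_sha_mem (α i).2).2 _ (F.pl_mem_placesAt V hq o)) u
    rw [res1_apply, Pi.zero_apply] at h
    show LinearMap.toSpanSingleton (ZMod p) A' (bb i) ((α i).1 (F.incl (F.pl o) u)) = 0
    rw [h, map_zero]
  let Φ : (Fin (Module.finrank (ZMod p) A') → ↥(Sha1N F (F.placesAt V))) →ₗ[ZMod p]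
      SH (Sha1 (F.coind A') S V) (B1 (F.coind A') (MonoidHom.id GG)) :=
    Submodule.mkQ _ ∘ₗ LinearMap.codRestrict _ g hmem
  have hinj : Function.Injective Φ := (injective_iff_map_eq_zero _).2 fun α hα => by
    have hB : g α ∈ B1 (F.coind A') (MonoidHom.id GG) :=
      ((Submodule.Quotient.mk_eq_zero _).1 hα : (⟨g α, hmem α⟩ : ↥(Sha1 (F.coind A') S V)) ∈
        (B1 (F.coind A') (MonoidHom.id GG)).comap (Submodule.subtype _))
    obtain ⟨f, hf⟩ := hB
    have h0 := F.ev1_d0 f
    rw [hf, hg, map_sum] at h0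
    simp only [F.ev1_shG (hH _ _)] at h0
    funext i
    refine Subtype.ext (funext fun n => ?_)
    have h1 := congrFun h0 n
    simp only [Finset.sum_apply, Pi.zero_apply, LinearMap.toSpanSingleton_apply] at h1
    exact Fintype.linearIndependent_iff.1 bb.linearIndependent (fun i => (α i).1 n) h1 i
  refine le_trans (le_of_eq ?_) (LinearMap.finrank_le_finrank_of_injective hinj)
  rw [Module.finrank_pi_fintype, Finset.sum_const, Finset.card_univ, Fintype.card_fin, smul_eq_mul]

theorem dim_eq_of_pair (P : DualPair ρ ρ') : Module.finrank (ZMod p) A = Module.finrank (ZMod p) A' := by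
  have hl : Function.Injective P.e := (injective_iff_map_eq_zero _).2 fun a ha =>
    P.left a fun b => by rw [ha, LinearMap.zero_apply]
  have hr : Function.Injective P.e.flip := (injective_iff_map_eq_zero _).2 fun b hb =>
    P.right b fun a => by rw [← LinearMap.flip_apply P.e, hb, LinearMap.zero_apply]
  have h1 := LinearMap.finrank_le_finrank_of_injective hl
  have h2 := LinearMap.finrank_le_finrank_of_injective hr
  rw [Subspace.dual_finrank_eq] at h1 h2
  omega

/-- Finiteness and the bound in degree two. -/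
theorem coind_sha (P : DualPair ρ ρ') (hF : FieldFacts F (F.placesAt V)) :
    FiniteDimensional (ZMod p) (SH (Sha2 (F.coind A) S V) (B2S (F.coind A) (MonoidHom.id GG) S)) ∧
    Module.finrank (ZMod p) (SH (Sha2 (F.coind A) S V) (B2S (F.coind A) (MonoidHom.id GG) S)) ≤
      Module.finrank (ZMod p)
        (SH (Sha1 (F.coind A') S V) (B1 (F.coind A') (MonoidHom.id GG))) := by
  haveI := hF.sha_finite
  refine ⟨finite_SH _ _ (F.shaMap V) (F.shaMap_ker V),
    (finrank_SH_le _ _ (F.shaMap V) (F.shaMap_ker V)).trans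
      (le_trans ?_ (F.coind_sha1_ge V hF.finiteGlobal))⟩
  rw [Module.finrank_pi_fintype, Finset.sum_const, Finset.card_univ, Fintype.card_fin, smul_eq_mul,
    dim_eq_of_pair P]
  exact Nat.mul_le_mul_left _ hF.sha_le

end SField

end FLTAgent.PoitouTate
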